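/-
S41 / plug 3, ABSTRACT WIRING (helper33, integrator): from elementary operator data on two
lattices `L` (level `N`) and `L'` (level `N q'`) to the input of `Final49.levelRaising_tail_int`.

No modules over Hecke algebras appear in the hypotheses: the polynomial ring `MvPolynomial ι ℤ`
(`ι` = the set `PS` of primes) and its module structures are built internally with `TMod49`, the
character `θ = TMod49.theta p c`, Ihara's lemma is consumed in the shape of
`Ihara73.ihara_hI`, Poincaré duality in the shape of `PDAssembly86.hII_of_pd_ribet`, and the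
result is obtained from `Mid77.exists_new_vector`.

The only hypothesis mentioning the module structure is `hsupp` (the system `(θ, T_q² = c_q²)` is
in the support of `L`), stated literally as in `Mid77.exists_new_vector`; it is provided from the
eigenvector `f` by `Mid77/Eigen`.
-/
import Mathlib
import Fermat.Agent.S41.Mid77.Core
import Fermat.Agent.S41.TMod49.Basic
import Fermat.Agent.S41.TMod49.Ker
import Fermat.Agent.S41.PDAssembly86.RibetShape

set_option autoImplicit false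

namespace Fermat.Agent.S41.Contract33

open MvPolynomial
open Fermat.Agent.S41.TMod49 Fermat.Agent.S41.RibetAlg85 Fermat.Agent.S41.PDAssembly86

section SelfAdjoint

variable {ι : Type*} {L : Type*} [AddCommGroup L]

/-- If the generators `T i` are self-adjoint for a bilinear form, so is every polynomial in
them. -/
theorem opHom_selfAdjoint (T : ι → Module.End ℤ L) (hT : ∀ i j, Commute (T i) (T j))
    (B : L →ₗ[ℤ] L →ₗ[ℤ] ℤ) (hTadj : ∀ i x y, B (T i x) y = B x (T i y))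
    (s : MvPolynomial ι ℤ) (x y : L) :
    B (opHom T hT s x) y = B x (opHom T hT s y) := by
  induction s using MvPolynomial.induction_on generalizing x y with
  | C n =>
    rw [opHom_C, Module.algebraMap_end_apply, Module.algebraMap_end_apply, map_zsmul,
      LinearMap.smul_apply, map_zsmul]
  | add s t hs ht =>
    rw [map_add, LinearMap.add_apply, LinearMap.add_apply, map_add, LinearMap.add_apply, map_add,
      hs, ht]
  | mul_X s i hs =>
    rw [map_mul, opHom_X, Module.End.mul_apply, Module.End.mul_apply, hs, hTadj]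
    have hc : T i (opHom T hT s y) = opHom T hT s (T i y) := by
      have h := (map_smul_of_intertwine T hT T hT (T i).toAddMonoidHom
        (fun j z => by
          have := (hT i j).eq
          exact congrArg (fun E : Module.End ℤ L => E z) this) s y)
      exact h
    rw [hc]

end SelfAdjoint

section Wiring

variable {ι : Type*} {L L' : Type*} [AddCommGroup L] [AddCommGroup L']

/-- **Abstract plug-3 wiring.**  Commuting families `T i` on `L`, `T' i` on `L'`; an extra operator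
`Tq` on `L` commuting with the `T i`; degeneracy maps `α₁ α₂ : L → L'` and traces
`β₁ β₂ : L' → L` intertwining the families, with `β ∘ α = [[cq, Tq], [Tq, cq]]`; Ihara's lemma
(`hIhara`: a pair killed mod `p` by `α₁ + α₂` is Eisenstein, i.e. killed mod `p` by `T i - e i`
for all `i` outside a finite set); the eigen-system `c` is not Eisenstein (`hNE`); Poincaré
duality data (`B`, `B'`); the support hypothesis `hsupp`.

Conclusion: an element `x` of the new lattice `K = ker β₁ ∩ ker β₂`, not divisible by `p` in `K`,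
with `T' i x ≡ c i x` modulo `p K` for all `i`. -/
theorem exists_new_congruent_vector
    [Module.Finite ℤ L] [Module.Free ℤ L'] [Module.Finite ℤ L']
    (p : ℕ) [hp : Fact p.Prime]
    (T : ι → Module.End ℤ L) (hT : ∀ i j, Commute (T i) (T j))
    (T' : ι → Module.End ℤ L') (hT' : ∀ i j, Commute (T' i) (T' j))
    (Tq : Module.End ℤ L) (hTq : ∀ i x, Tq (T i x) = T i (Tq x)) (cq : ℤ)
    (α₁ α₂ : L →+ L') (β₁ β₂ : L' →+ L)
    (hα₁ : ∀ i x, α₁ (T i x) = T' i (α₁ x)) (hα₂ : ∀ i x, α₂ (T i x) = T' i (α₂ x))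
    (hβ₁ : ∀ i z, β₁ (T' i z) = T i (β₁ z)) (hβ₂ : ∀ i z, β₂ (T' i z) = T i (β₂ z))
    (h11 : ∀ x, β₁ (α₁ x) = cq • x) (h12 : ∀ y, β₁ (α₂ y) = Tq y)
    (h21 : ∀ x, β₂ (α₁ x) = Tq x) (h22 : ∀ y, β₂ (α₂ y) = cq • y)
    (htf : ∀ x : L, (p : ℤ) • x = 0 → x = 0)
    (c e : ι → ℤ)
    (hIhara : ∀ x y : L, (∃ w : L', α₁ x + α₂ y = (p : ℤ) • w) →
      ∃ B : Finset ι, ∀ i, i ∉ B →
        (∃ w : L, T i x - e i • x = (p : ℤ) • w) ∧ (∃ w : L, T i y - e i • y = (p : ℤ) • w))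
    (hNE : ∀ B : Finset ι, ∃ i, i ∉ B ∧ ¬ (p : ℤ) ∣ c i - e i)
    (B : L →ₗ[ℤ] L →ₗ[ℤ] ℤ) (B' : L' →ₗ[ℤ] L' →ₗ[ℤ] ℤ)
    (hnd : ∀ y, (∀ x, B x y = 0) → y = 0)
    (hperf : ∀ l : L →ₗ[ℤ] ℤ, ∃ y, ∀ x, B x y = l x)
    (hperf' : ∀ l : L' →ₗ[ℤ] ℤ, ∃ y, ∀ x, B' x y = l x)
    (hTadj : ∀ i x y, B (T i x) y = B x (T i y))
    (hadj₁ : ∀ x z, B' (α₁ x) z = B x (β₁ z)) (hadj₂ : ∀ x z, B' (α₂ x) z = B x (β₂ z))
    (hsupp :
      letI := opModule T hT
      ∃ x₀ : L, ∀ s : MvPolynomial ι ℤ, theta p c s ≠ 0 →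
        ¬ ∃ w ∈ (RingHom.ker (theta p c)) • (⊤ : Submodule (MvPolynomial ι ℤ) L), ∃ y : L,
          s • x₀ = w + (Tq (Tq y) - ((C cq : MvPolynomial ι ℤ) * C cq) • y)) :
    ∃ x : L', β₁ x = 0 ∧ β₂ x = 0 ∧
      (¬ ∃ y : L', β₁ y = 0 ∧ β₂ y = 0 ∧ x = (p : ℤ) • y) ∧
      ∀ i, ∃ y : L', β₁ y = 0 ∧ β₂ y = 0 ∧ T' i x - c i • x = (p : ℤ) • y := by
  classical
  letI instL : Module (MvPolynomial ι ℤ) L := opModule T hT
  letI instL' : Module (MvPolynomial ι ℤ) L' := opModule T' hT'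
  -- the linear maps
  let a₁ : L →ₗ[MvPolynomial ι ℤ] L' := linOfIntertwine T hT T' hT' α₁ hα₁
  let a₂ : L →ₗ[MvPolynomial ι ℤ] L' := linOfIntertwine T hT T' hT' α₂ hα₂
  let b₁ : L' →ₗ[MvPolynomial ι ℤ] L := linOfIntertwine T' hT' T hT β₁ hβ₁
  let b₂ : L' →ₗ[MvPolynomial ι ℤ] L := linOfIntertwine T' hT' T hT β₂ hβ₂
  let tq : L →ₗ[MvPolynomial ι ℤ] L :=
    linOfIntertwine T hT T hT Tq.toAddMonoidHom (fun i x => hTq i x)
  have ha₁ : ∀ x, a₁ x = α₁ x := fun _ => rfl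
  have ha₂ : ∀ x, a₂ x = α₂ x := fun _ => rfl
  have hb₁ : ∀ x, b₁ x = β₁ x := fun _ => rfl
  have hb₂ : ∀ x, b₂ x = β₂ x := fun _ => rfl
  have htq : ∀ x, tq x = Tq x := fun _ => rfl
  set θ : MvPolynomial ι ℤ →+* ZMod p := theta p c with hθ
  have hpL : ∀ m : L, PDvd ((p : ℕ) : MvPolynomial ι ℤ) m ↔ ∃ w : L, m = (p : ℤ) • w :=
    fun m => pDvd_natCast_iff p m
  have hpL' : ∀ m : L', PDvd ((p : ℕ) : MvPolynomial ι ℤ) m ↔ ∃ w : L', m = (p : ℤ) • w :=
    fun m => pDvd_natCast_iff p m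
  -- (I)
  have hI : ∀ x y : L, PDvd ((p : ℕ) : MvPolynomial ι ℤ) (a₁ x + a₂ y) →
      ∃ s, θ s ≠ 0 ∧ PDvd ((p : ℕ) : MvPolynomial ι ℤ) (s • x) ∧
        PDvd ((p : ℕ) : MvPolynomial ι ℤ) (s • y) := by
    intro x y hxy
    obtain ⟨w, hw⟩ := (hpL' _).mp hxy
    obtain ⟨Bf, hBf⟩ := hIhara x y ⟨w, hw⟩
    obtain ⟨i, hiB, hi⟩ := hNE Bf
    obtain ⟨⟨w₁, hw₁⟩, ⟨w₂, hw₂⟩⟩ := hBf i hiB
    refine ⟨X i - C (e i), theta_X_sub_C_ne_zero p c hi, (hpL _).mpr ⟨w₁, ?_⟩,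
      (hpL _).mpr ⟨w₂, ?_⟩⟩
    · rw [← hw₁]; exact X_sub_C_smul T hT i (e i) x
    · rw [← hw₂]; exact X_sub_C_smul T hT i (e i) y
  -- (II)
  haveI hprime : (RingHom.ker θ).IsPrime := RingHom.ker_isPrime θ
  have hp𝔪 : ((p : ℕ) : MvPolynomial ι ℤ) ∈ RingHom.ker θ := by
    rw [RingHom.mem_ker, map_natCast, ZMod.natCast_self]
  have hII : ∀ x y : L, ∃ s, θ s ≠ 0 ∧ ∃ z : L', b₁ z = s • x ∧ b₂ z = s • y := by
    intro x y
    obtain ⟨s, hs, z, h1, h2⟩ := hII_of_pd_ribet (𝕋 := MvPolynomial ι ℤ) p (RingHom.ker θ) hp𝔪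
      B B' hnd hperf hperf'
      (fun t x y => opHom_selfAdjoint T hT B hTadj t x y) a₁ a₂ b₁ b₂ hadj₁ hadj₂
      (fun x y h => by
        obtain ⟨s, hs, h1, h2⟩ := hI x y h
        exact ⟨s, fun hmem => hs (RingHom.mem_ker.mp hmem), h1, h2⟩) x y
    exact ⟨s, fun h0 => hs (RingHom.mem_ker.mpr h0), z, h1, h2⟩
  -- [MID]
  obtain ⟨x, hx1, hx2, hxp, hxs⟩ := Fermat.Agent.S41.Mid77.exists_new_vector θ
    (C cq : MvPolynomial ι ℤ) tq a₁ a₂ b₁ b₂
    (fun x => by rw [ha₁, hb₁, h11]; exact (C_smul T hT cq x).symm)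
    (fun y => by rw [ha₂, hb₁, h12, htq])
    (fun x => by rw [ha₁, hb₂, h21, htq])
    (fun y => by rw [ha₂, hb₂, h22]; exact (C_smul T hT cq y).symm)
    (fun x hx => htf x (by rw [← natCast_smul T hT p x]; exact hx))
    hI hII hsupp
  refine ⟨x, hx1, hx2, hxp, fun i => ?_⟩
  obtain ⟨y, hy1, hy2, hy⟩ := hxs (X i - C (c i)) (theta_X_sub_C_self p c i)
  refine ⟨y, hy1, hy2, ?_⟩
  rw [← hy]
  exact (X_sub_C_smul T' hT' i (c i) x).symm

end Wiring

end Fermat.Agent.S41.Contract33
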