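/-
S41 / plug 3, CONCRETE WIRING, weak-tail version (helper33, integrator).

Same as `Contract33.levelRaising_of_leaves`, but ending in helper20's
`ESFinal20.levelRaising_tail_int_weak`: the new lattice `K = ker β₁ ∩ ker β₂` only has to be stable
under the anemic operators `TZ ℓ`, `ℓ ∈ PS` (which follows from the intertwining hypotheses
`hβ₁T`, `hβ₂T`), so the hypothesis `hKstab` (stability under ALL `TZ ℓ`, including `U_ℓ`, `ℓ ∣ N q'`)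
disappears.  The only remaining [NEW] obligation is `hKq : TZ q' (TZ q' φ) = φ` on `K`.
-/
import Mathlib
import Fermat.Agent.S41.Contract33.Concrete
import Fermat.Agent.S41.ESFinal20.TailWeak

set_option autoImplicit false

namespace Fermat.Agent.S41.Contract33

open ModularCurve ModularCurve.Period CongruenceSubgroup CuspForm
open scoped MatrixGroups

/-! ### The concrete wiring -/

section Concrete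

variable {p N q' : ℕ} [NeZero N] [NeZero (N * q')]

local notation "LN" => parabolicHoms ℤ (Gamma0 N) ℤ
local notation "LM" => parabolicHoms ℤ (Gamma0 (N * q')) ℤ

/-- **Plug 3 from the leaves**, weak-tail version (abstract operator families).  See the file
header. -/
theorem levelRaising_of_leaves_weak (hp : p.Prime) (hq' : q'.Prime)
    -- level `N q'`: the operators and Eichler–Shimura
    (TX : ℕ → Module.End ℂ (Additive (Gamma0 (N * q')) →+ ℂ))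
    (hE1 : ∀ ℓ (hℓ : ℓ.Prime) (hℓM : ¬ ℓ ∣ N * q') (f : CuspForm (Gamma0 (N * q')) 2),
      TX ℓ (periodMap (N * q') f) = periodMap (N * q') (heckeTLin 2 hℓ hℓM f))
    (hE2 : ∀ ℓ (_ : ℓ.Prime) (hℓM : ℓ ∣ N * q') (f : CuspForm (Gamma0 (N * q')) 2),
      TX ℓ (periodMap (N * q') f) = periodMap (N * q') (heckeULin 2 hℓM f))
    (hE3 : ∀ ℓ, ℓ.Prime → ∀ φ : Additive (Gamma0 (N * q')) →+ ℂ,
      TX ℓ (charInvolution (N * q') ℂ ℂ φ) = charInvolution (N * q') ℂ ℂ (TX ℓ φ))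
    (hES : Function.Injective (periodHomPair (N * q')) ∧
      LinearMap.range (periodHomPair (N * q')) = parabolicHoms ℂ (Gamma0 (N * q')) ℂ)
    (TZ : ℕ → Module.End ℤ (Additive (Gamma0 (N * q')) →+ ℤ))
    (hTZ : ∀ ℓ, ℓ.Prime → ∀ φ : Additive (Gamma0 (N * q')) →+ ℤ,
      Final49.castHom (Gamma0 (N * q')) (TZ ℓ φ) = TX ℓ (Final49.castHom (Gamma0 (N * q')) φ))
    (hTZpar : ∀ ℓ, ℓ.Prime → ∀ φ ∈ parabolicHoms ℤ (Gamma0 (N * q')) ℤ,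
      TZ ℓ φ ∈ parabolicHoms ℤ (Gamma0 (N * q')) ℤ)
    -- level `N`: the operators
    (TN : ℕ → Module.End ℤ (Additive (Gamma0 N) →+ ℤ))
    (hTNpar : ∀ ℓ, ℓ.Prime → ∀ φ ∈ parabolicHoms ℤ (Gamma0 N) ℤ,
      TN ℓ φ ∈ parabolicHoms ℤ (Gamma0 N) ℤ)
    (hTNcomm : ∀ ℓ ℓ', ℓ.Prime → ℓ'.Prime → ∀ φ ∈ parabolicHoms ℤ (Gamma0 N) ℤ,
      TN ℓ (TN ℓ' φ) = TN ℓ' (TN ℓ φ))
    -- degeneracy maps and traces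
    (α₁ α₂ : (Additive (Gamma0 N) →+ ℤ) →+ (Additive (Gamma0 (N * q')) →+ ℤ))
    (β₁ β₂ : (Additive (Gamma0 (N * q')) →+ ℤ) →+ (Additive (Gamma0 N) →+ ℤ))
    (hα₁par : ∀ φ ∈ parabolicHoms ℤ (Gamma0 N) ℤ, α₁ φ ∈ parabolicHoms ℤ (Gamma0 (N * q')) ℤ)
    (hα₂par : ∀ φ ∈ parabolicHoms ℤ (Gamma0 N) ℤ, α₂ φ ∈ parabolicHoms ℤ (Gamma0 (N * q')) ℤ)
    (hβ₁par : ∀ φ ∈ parabolicHoms ℤ (Gamma0 (N * q')) ℤ, β₁ φ ∈ parabolicHoms ℤ (Gamma0 N) ℤ)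
    (hβ₂par : ∀ φ ∈ parabolicHoms ℤ (Gamma0 (N * q')) ℤ, β₂ φ ∈ parabolicHoms ℤ (Gamma0 N) ℤ)
    (PS : Set ℕ) (hPS : ∀ ℓ ∈ PS, ℓ.Prime)
    (hα₁T : ∀ ℓ ∈ PS, ∀ φ ∈ parabolicHoms ℤ (Gamma0 N) ℤ, α₁ (TN ℓ φ) = TZ ℓ (α₁ φ))
    (hα₂T : ∀ ℓ ∈ PS, ∀ φ ∈ parabolicHoms ℤ (Gamma0 N) ℤ, α₂ (TN ℓ φ) = TZ ℓ (α₂ φ))
    (hβ₁T : ∀ ℓ ∈ PS, ∀ φ ∈ parabolicHoms ℤ (Gamma0 (N * q')) ℤ, β₁ (TZ ℓ φ) = TN ℓ (β₁ φ))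
    (hβ₂T : ∀ ℓ ∈ PS, ∀ φ ∈ parabolicHoms ℤ (Gamma0 (N * q')) ℤ, β₂ (TZ ℓ φ) = TN ℓ (β₂ φ))
    (h11 : ∀ φ ∈ parabolicHoms ℤ (Gamma0 N) ℤ, β₁ (α₁ φ) = ((q' : ℤ) + 1) • φ)
    (h12 : ∀ φ ∈ parabolicHoms ℤ (Gamma0 N) ℤ, β₁ (α₂ φ) = TN q' φ)
    (h21 : ∀ φ ∈ parabolicHoms ℤ (Gamma0 N) ℤ, β₂ (α₁ φ) = TN q' φ)
    (h22 : ∀ φ ∈ parabolicHoms ℤ (Gamma0 N) ℤ, β₂ (α₂ φ) = ((q' : ℤ) + 1) • φ)
    -- Ihara's lemma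
    (hIhara : ∀ x ∈ parabolicHoms ℤ (Gamma0 N) ℤ, ∀ y ∈ parabolicHoms ℤ (Gamma0 N) ℤ,
      (∃ w ∈ parabolicHoms ℤ (Gamma0 (N * q')) ℤ, α₁ x + α₂ y = (p : ℤ) • w) →
      ∃ B : Finset ℕ, ∀ ℓ, ℓ.Prime → ℓ ∉ B →
        (∃ w ∈ parabolicHoms ℤ (Gamma0 N) ℤ, TN ℓ x - ((ℓ : ℤ) + 1) • x = (p : ℤ) • w) ∧
        (∃ w ∈ parabolicHoms ℤ (Gamma0 N) ℤ, TN ℓ y - ((ℓ : ℤ) + 1) • y = (p : ℤ) • w))
    -- Poincaré duality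
    (BN : ↥(parabolicHoms ℤ (Gamma0 N) ℤ) →ₗ[ℤ] ↥(parabolicHoms ℤ (Gamma0 N) ℤ) →ₗ[ℤ] ℤ)
    (BM : ↥(parabolicHoms ℤ (Gamma0 (N * q')) ℤ) →ₗ[ℤ]
      ↥(parabolicHoms ℤ (Gamma0 (N * q')) ℤ) →ₗ[ℤ] ℤ)
    (hnd : ∀ y, (∀ x, BN x y = 0) → y = 0)
    (hperf : ∀ l : ↥(parabolicHoms ℤ (Gamma0 N) ℤ) →ₗ[ℤ] ℤ, ∃ y, ∀ x, BN x y = l x)
    (hperf' : ∀ l : ↥(parabolicHoms ℤ (Gamma0 (N * q')) ℤ) →ₗ[ℤ] ℤ, ∃ y, ∀ x, BM x y = l x)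
    (hTadj : ∀ ℓ (hℓ : ℓ ∈ PS) (x y : ↥(parabolicHoms ℤ (Gamma0 N) ℤ)),
      BN ⟨TN ℓ x, hTNpar ℓ (hPS ℓ hℓ) x x.2⟩ y = BN x ⟨TN ℓ y, hTNpar ℓ (hPS ℓ hℓ) y y.2⟩)
    (hadj₁ : ∀ (x : ↥(parabolicHoms ℤ (Gamma0 N) ℤ)) (z : ↥(parabolicHoms ℤ (Gamma0 (N * q')) ℤ)),
      BM ⟨α₁ x, hα₁par x x.2⟩ z = BN x ⟨β₁ z, hβ₁par z z.2⟩)
    (hadj₂ : ∀ (x : ↥(parabolicHoms ℤ (Gamma0 N) ℤ)) (z : ↥(parabolicHoms ℤ (Gamma0 (N * q')) ℤ)),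
      BM ⟨α₂ x, hα₂par x x.2⟩ z = BN x ⟨β₂ z, hβ₂par z z.2⟩)
    -- the `q'`-new lattice
    (hKq : ∀ φ ∈ parabolicHoms ℤ (Gamma0 (N * q')) ℤ, β₁ φ = 0 → β₂ φ = 0 →
      TZ q' (TZ q' φ) = φ)
    -- the eigen-system
    (c : ℕ → ℤ)
    (hNE : ∀ B : Finset ℕ, ∃ ℓ ∈ PS, ℓ ∉ B ∧ ¬ (p : ℤ) ∣ c ℓ - ((ℓ : ℤ) + 1))
    (hsupp :
      letI := TMod49.opModule
        (resFam (parabolicHoms ℤ (Gamma0 N) ℤ) PS TN (fun ℓ hℓ => hTNpar ℓ (hPS ℓ hℓ)))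
        (resFam_commute _ PS TN _ (fun ℓ hℓ ℓ' hℓ' => hTNcomm ℓ ℓ' (hPS ℓ hℓ) (hPS ℓ' hℓ')))
      ∃ x₀ : ↥(parabolicHoms ℤ (Gamma0 N) ℤ), ∀ s : MvPolynomial ↥PS ℤ,
        TMod49.theta p (fun i : ↥PS => c i.1) s ≠ 0 →
        ¬ ∃ w ∈ (RingHom.ker (TMod49.theta p (fun i : ↥PS => c i.1))) •
            (⊤ : Submodule (MvPolynomial ↥PS ℤ) ↥(parabolicHoms ℤ (Gamma0 N) ℤ)),
          ∃ y : ↥(parabolicHoms ℤ (Gamma0 N) ℤ),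
            s • x₀ = w + ((TN q').restrict (hTNpar q' hq') ((TN q').restrict (hTNpar q' hq') y) -
              ((MvPolynomial.C ((q' : ℤ) + 1) : MvPolynomial ↥PS ℤ) *
                MvPolynomial.C ((q' : ℤ) + 1)) • y)) :
    ∃ (g : CuspForm (Gamma0 (N * q')) 2) (mu : ℕ → ℂ) (𝔪' : Ideal (integralClosure ℤ ℂ)),
      g ≠ 0 ∧ 𝔪'.IsMaximal ∧ (p : integralClosure ℤ ℂ) ∈ 𝔪' ∧
      (∀ (ℓ : ℕ) (hℓ : ℓ.Prime) (hℓM : ¬ ℓ ∣ N * q'), heckeTLin 2 hℓ hℓM g = mu ℓ • g) ∧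
      (∀ (ℓ : ℕ) (_ : ℓ.Prime) (hℓM : ℓ ∣ N * q'), heckeULin 2 hℓM g = mu ℓ • g) ∧
      (∀ ℓ ∈ PS, ∃ a : integralClosure ℤ ℂ, (a : ℂ) = mu ℓ ∧
        a - ((c ℓ : ℤ) : integralClosure ℤ ℂ) ∈ 𝔪') ∧
      mu q' ^ 2 = 1 := by
  classical
  haveI : Fact p.Prime := ⟨hp⟩
  haveI : Group.FG (Gamma0 N) := Lattice57.gamma0_fg N
  haveI : Group.FG (Gamma0 (N * q')) := Lattice57.gamma0_fg (N * q')
  haveI : Module.Finite ℤ ↥(parabolicHoms ℤ (Gamma0 N) ℤ) :=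
    Lattice57.finite_parabolicHomsInt (Gamma0 N)
  haveI : Module.Finite ℤ ↥(parabolicHoms ℤ (Gamma0 (N * q')) ℤ) :=
    Lattice57.finite_parabolicHomsInt (Gamma0 (N * q'))
  haveI : Module.Free ℤ ↥(parabolicHoms ℤ (Gamma0 (N * q')) ℤ) :=
    Lattice57.free_parabolicHomsInt (Gamma0 (N * q'))
  -- commutativity at level `N q'`
  have hTZcomm : ∀ ℓ ∈ PS, ∀ ℓ' ∈ PS, ∀ φ ∈ LM, TZ ℓ (TZ ℓ' φ) = TZ ℓ' (TZ ℓ φ) :=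
    fun ℓ hℓ ℓ' hℓ' φ hφ =>
      TZ_comm_on_parabolic TX hE1 hE2 hE3 hES TZ hTZ (hPS ℓ hℓ) (hPS ℓ' hℓ') φ hφ
  -- restricted maps
  let a₁ : ↥LN →+ ↥LM := (α₁.toIntLinearMap.restrict hα₁par).toAddMonoidHom
  let a₂ : ↥LN →+ ↥LM := (α₂.toIntLinearMap.restrict hα₂par).toAddMonoidHom
  let b₁ : ↥LM →+ ↥LN := (β₁.toIntLinearMap.restrict hβ₁par).toAddMonoidHom
  let b₂ : ↥LM →+ ↥LN := (β₂.toIntLinearMap.restrict hβ₂par).toAddMonoidHom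
  have ha₁ : ∀ x : ↥LN, ((a₁ x : ↥LM) : Additive (Gamma0 (N * q')) →+ ℤ) = α₁ x := fun _ => rfl
  have ha₂ : ∀ x : ↥LN, ((a₂ x : ↥LM) : Additive (Gamma0 (N * q')) →+ ℤ) = α₂ x := fun _ => rfl
  have hb₁ : ∀ z : ↥LM, ((b₁ z : ↥LN) : Additive (Gamma0 N) →+ ℤ) = β₁ z := fun _ => rfl
  have hb₂ : ∀ z : ↥LM, ((b₂ z : ↥LN) : Additive (Gamma0 N) →+ ℤ) = β₂ z := fun _ => rfl
  obtain ⟨x, hx1, hx2, hxp, hxc⟩ := exists_new_congruent_vector (ι := ↥PS) (L := ↥LN) (L' := ↥LM) p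
    (resFam LN PS TN (fun ℓ hℓ => hTNpar ℓ (hPS ℓ hℓ)))
    (resFam_commute _ PS TN _ (fun ℓ hℓ ℓ' hℓ' => hTNcomm ℓ ℓ' (hPS ℓ hℓ) (hPS ℓ' hℓ')))
    (resFam LM PS TZ (fun ℓ hℓ => hTZpar ℓ (hPS ℓ hℓ)))
    (resFam_commute _ PS TZ _ hTZcomm)
    ((TN q').restrict (hTNpar q' hq'))
    (fun i x => Subtype.ext (hTNcomm q' i.1 hq' (hPS i.1 i.2) x.1 x.2))
    ((q' : ℤ) + 1) a₁ a₂ b₁ b₂
    (fun i x => Subtype.ext (hα₁T i.1 i.2 x.1 x.2))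
    (fun i x => Subtype.ext (hα₂T i.1 i.2 x.1 x.2))
    (fun i z => Subtype.ext (hβ₁T i.1 i.2 z.1 z.2))
    (fun i z => Subtype.ext (hβ₂T i.1 i.2 z.1 z.2))
    (fun x => Subtype.ext (h11 x.1 x.2))
    (fun y => Subtype.ext (h12 y.1 y.2))
    (fun x => Subtype.ext (h21 x.1 x.2))
    (fun y => Subtype.ext (h22 y.1 y.2))
    (fun x hx => by
      apply Subtype.ext
      refine AddMonoidHom.ext fun γ => ?_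
      have h1 : (((p : ℤ) • x : ↥LN) : Additive (Gamma0 N) →+ ℤ) γ = 0 := by rw [hx]; rfl
      have h2 : (p : ℤ) * (x : Additive (Gamma0 N) →+ ℤ) γ = 0 := by simpa using h1
      rcases mul_eq_zero.mp h2 with h | h
      · exact absurd (by exact_mod_cast h) hp.ne_zero
      · simpa using h)
    (fun i : ↥PS => c i.1) (fun i : ↥PS => ((i.1 : ℕ) : ℤ) + 1)
    (fun x y hxy => by
      obtain ⟨w, hw⟩ := hxy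
      obtain ⟨B, hB⟩ := hIhara x.1 x.2 y.1 y.2 ⟨w.1, w.2, by
        exact congrArg Subtype.val hw⟩
      refine ⟨B.subtype (· ∈ PS), fun i hi => ?_⟩
      have hiB : i.1 ∉ B := fun h => hi (Finset.mem_subtype.mpr h)
      obtain ⟨⟨w₁, hw₁, h1⟩, ⟨w₂, hw₂, h2⟩⟩ := hB i.1 (hPS i.1 i.2) hiB
      exact ⟨⟨⟨w₁, hw₁⟩, Subtype.ext h1⟩, ⟨⟨w₂, hw₂⟩, Subtype.ext h2⟩⟩)
    (fun Bι => by
      obtain ⟨ℓ, hℓPS, hℓB, hℓ⟩ := hNE (Bι.map (Function.Embedding.subtype _))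
      refine ⟨⟨ℓ, hℓPS⟩, fun h => hℓB ?_, hℓ⟩
      exact Finset.mem_map.mpr ⟨⟨ℓ, hℓPS⟩, h, rfl⟩)
    BN BM hnd hperf hperf'
    (fun i x y => hTadj i.1 i.2 x y)
    (fun x z => hadj₁ x z) (fun x z => hadj₂ x z)
    hsupp
  -- the new lattice, in the ambient group
  let K : Submodule ℤ (Additive (Gamma0 (N * q')) →+ ℤ) :=
    LM ⊓ (LinearMap.ker β₁.toIntLinearMap ⊓ LinearMap.ker β₂.toIntLinearMap)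
  have hKmem : ∀ φ, φ ∈ K ↔ φ ∈ LM ∧ β₁ φ = 0 ∧ β₂ φ = 0 := fun φ => by
    simp only [K, Submodule.mem_inf, LinearMap.mem_ker, AddMonoidHom.coe_toIntLinearMap]
  haveI : IsNoetherian ℤ (Additive (Gamma0 (N * q')) →+ ℤ) :=
    Lattice57.isNoetherian_homInt (Gamma0 (N * q'))
  have hx1' : β₁ (x : Additive (Gamma0 (N * q')) →+ ℤ) = 0 := congrArg Subtype.val hx1
  have hx2' : β₂ (x : Additive (Gamma0 (N * q')) →+ ℤ) = 0 := congrArg Subtype.val hx2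
  refine ESFinal20.levelRaising_tail_int_weak TX hE1 hE2 hE3 hES TZ hTZ hq' hp K
    (IsNoetherian.noetherian K) (fun φ hφ => ((hKmem φ).mp hφ).1) PS hPS ?_ ?_ c
    (x : Additive (Gamma0 (N * q')) →+ ℤ) ((hKmem _).mpr ⟨x.2, hx1', hx2'⟩) ?_ ?_
  · intro ℓ hℓ φ hφ
    obtain ⟨h0, h1, h2⟩ := (hKmem φ).mp hφ
    refine (hKmem _).mpr ⟨hTZpar ℓ (hPS ℓ hℓ) φ h0, ?_, ?_⟩
    · rw [hβ₁T ℓ hℓ φ h0, h1, map_zero]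
    · rw [hβ₂T ℓ hℓ φ h0, h2, map_zero]
  · intro φ hφ
    obtain ⟨h0, h1, h2⟩ := (hKmem φ).mp hφ
    exact hKq φ h0 h1 h2
  · rintro ⟨y, hy, hxy⟩
    obtain ⟨h0, h1, h2⟩ := (hKmem y).mp hy
    apply hxp
    refine ⟨⟨y, h0⟩, Subtype.ext h1, Subtype.ext h2, Subtype.ext ?_⟩
    exact hxy
  · intro ℓ hℓ
    obtain ⟨y, hy1, hy2, hy⟩ := hxc ⟨ℓ, hℓ⟩
    refine ⟨y.1, (hKmem _).mpr ⟨y.2, ?_, ?_⟩, ?_⟩
    · exact congrArg Subtype.val hy1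
    · exact congrArg Subtype.val hy2
    · exact congrArg Subtype.val hy

end Concrete

end Fermat.Agent.S41.Contract33
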