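/-
S41 / plug 3 (helper33, integrator): the support hypothesis `hsupp` of
`Contract33.levelRaising_of_leaves(_weak)` FROM THE EIGENFORM `f` of level `N`.

`v := periodHomPair N (f, 0)` is a non-zero vector of `parabolicHoms ℂ (Γ₀(N)) ℂ = span_ℂ (lattice)`
(Eichler–Shimura, `hES`; `Lattice57.span_latticeInC`), an eigenvector of the cohomological Hecke
operators with the eigenvalues of `f` (`Final49.periodHomPair_thetaD`); then
`Mid77.hsupp_of_eigenvector` applies with `𝕋 = MvPolynomial ↥PS ℤ`, `θ = TMod49.theta p c`.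
-/
import Mathlib
import Fermat.Agent.S41.Contract33.Concrete
import Fermat.Agent.S41.Mid77.Hsupp

set_option autoImplicit false

namespace Fermat.Agent.S41.Contract33

open ModularCurve ModularCurve.Period CongruenceSubgroup CuspForm
open scoped MatrixGroups

section Hsupp

variable {p N q' : ℕ} [NeZero N]

local notation "LN" => parabolicHoms ℤ (Gamma0 N) ℤ

/-- **`hsupp` from the eigenform.** -/
theorem hsupp_of_eigenform (hp : p.Prime) (hq' : q'.Prime) (hq'N : ¬ q' ∣ N)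
    (TXN : ℕ → Module.End ℂ (Additive (Gamma0 N) →+ ℂ))
    (hE1 : ∀ ℓ (hℓ : ℓ.Prime) (hℓM : ¬ ℓ ∣ N) (f : CuspForm (Gamma0 N) 2),
      TXN ℓ (periodMap N f) = periodMap N (heckeTLin 2 hℓ hℓM f))
    (hE2 : ∀ ℓ (_ : ℓ.Prime) (hℓM : ℓ ∣ N) (f : CuspForm (Gamma0 N) 2),
      TXN ℓ (periodMap N f) = periodMap N (heckeULin 2 hℓM f))
    (hE3 : ∀ ℓ, ℓ.Prime → ∀ φ : Additive (Gamma0 N) →+ ℂ,
      TXN ℓ (charInvolution N ℂ ℂ φ) = charInvolution N ℂ ℂ (TXN ℓ φ))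
    (hES : Function.Injective (periodHomPair N) ∧
      LinearMap.range (periodHomPair N) = parabolicHoms ℂ (Gamma0 N) ℂ)
    (TN : ℕ → Module.End ℤ (Additive (Gamma0 N) →+ ℤ))
    (hTN : ∀ ℓ, ℓ.Prime → ∀ φ : Additive (Gamma0 N) →+ ℤ,
      Final49.castHom (Gamma0 N) (TN ℓ φ) = TXN ℓ (Final49.castHom (Gamma0 N) φ))
    (hTNpar : ∀ ℓ, ℓ.Prime → ∀ φ ∈ parabolicHoms ℤ (Gamma0 N) ℤ,
      TN ℓ φ ∈ parabolicHoms ℤ (Gamma0 N) ℤ)
    (hTNcomm : ∀ ℓ ℓ', ℓ.Prime → ℓ'.Prime → ∀ φ ∈ parabolicHoms ℤ (Gamma0 N) ℤ,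
      TN ℓ (TN ℓ' φ) = TN ℓ' (TN ℓ φ))
    (PS : Set ℕ) (hPS : ∀ ℓ ∈ PS, ℓ.Prime) (hPSN : ∀ ℓ ∈ PS, ¬ ℓ ∣ N)
    (f : CuspForm (Gamma0 N) 2) (hf0 : f ≠ 0) (lam : ℕ → ℂ)
    (hlam : ∀ (ℓ : ℕ) (hℓ : ℓ.Prime) (hℓN : ¬ ℓ ∣ N), heckeTLin 2 hℓ hℓN f = lam ℓ • f)
    (𝔪 : Ideal (integralClosure ℤ ℂ)) (hmax : 𝔪.IsMaximal)
    (hpm : (p : integralClosure ℤ ℂ) ∈ 𝔪)
    (hLR : ∃ a : integralClosure ℤ ℂ, (a : ℂ) = lam q' ∧
      a ^ 2 - ((q' : integralClosure ℤ ℂ) + 1) ^ 2 ∈ 𝔪)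
    (c : ℕ → ℤ)
    (hc : ∀ ℓ ∈ PS, ∃ a : integralClosure ℤ ℂ, (a : ℂ) = lam ℓ ∧
      a - ((c ℓ : ℤ) : integralClosure ℤ ℂ) ∈ 𝔪) :
    letI := TMod49.opModule
      (resFam (parabolicHoms ℤ (Gamma0 N) ℤ) PS TN (fun ℓ hℓ => hTNpar ℓ (hPS ℓ hℓ)))
      (resFam_commute _ PS TN _ (fun ℓ hℓ ℓ' hℓ' => hTNcomm ℓ ℓ' (hPS ℓ hℓ) (hPS ℓ' hℓ')))
    ∃ x₀ : ↥(parabolicHoms ℤ (Gamma0 N) ℤ), ∀ s : MvPolynomial ↥PS ℤ,
      TMod49.theta p (fun i : ↥PS => c i.1) s ≠ 0 →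
      ¬ ∃ w ∈ (RingHom.ker (TMod49.theta p (fun i : ↥PS => c i.1))) •
          (⊤ : Submodule (MvPolynomial ↥PS ℤ) ↥(parabolicHoms ℤ (Gamma0 N) ℤ)),
        ∃ y : ↥(parabolicHoms ℤ (Gamma0 N) ℤ),
          s • x₀ = w + ((TN q').restrict (hTNpar q' hq') ((TN q').restrict (hTNpar q' hq') y) -
            ((MvPolynomial.C ((q' : ℤ) + 1) : MvPolynomial ↥PS ℤ) *
              MvPolynomial.C ((q' : ℤ) + 1)) • y) := by
  classical
  haveI : Fact p.Prime := ⟨hp⟩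
  haveI : Group.FG (Gamma0 N) := Lattice57.gamma0_fg N
  haveI : Module.Finite ℤ ↥(parabolicHoms ℤ (Gamma0 N) ℤ) :=
    Lattice57.finite_parabolicHomsInt (Gamma0 N)
  -- the commuting family and the module structure
  let T : ↥PS → Module.End ℤ ↥LN := resFam LN PS TN (fun ℓ hℓ => hTNpar ℓ (hPS ℓ hℓ))
  have hT : ∀ i j, Commute (T i) (T j) :=
    resFam_commute _ PS TN _ (fun ℓ hℓ ℓ' hℓ' => hTNcomm ℓ ℓ' (hPS ℓ hℓ) (hPS ℓ' hℓ'))
  letI instL : Module (MvPolynomial ↥PS ℤ) ↥LN := TMod49.opModule T hT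
  -- `T_{q'}` as a `𝕋`-linear map
  let Tq : Module.End ℤ ↥LN := (TN q').restrict (hTNpar q' hq')
  let tq : ↥LN →ₗ[MvPolynomial ↥PS ℤ] ↥LN :=
    TMod49.linOfIntertwine T hT T hT Tq.toAddMonoidHom
      (fun i x => Subtype.ext (hTNcomm q' i.1 hq' (hPS i.1 i.2) x.1 x.2))
  -- the embedding into `Hom(Γ₀(N), ℂ)`
  let j : ↥LN →+ (Additive (Gamma0 N) →+ ℂ) :=
    (Final49.castHom (Gamma0 N)).toAddMonoidHom.comp
      (parabolicHoms ℤ (Gamma0 N) ℤ).subtype.toAddMonoidHom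
  have hj : ∀ x : ↥LN, j x = Final49.castHom (Gamma0 N) (x : Additive (Gamma0 N) →+ ℤ) :=
    fun _ => rfl
  -- the eigenvector
  set v : Additive (Gamma0 N) →+ ℂ := periodHomPair N (f, 0) with hv
  have hv0 : v ≠ 0 := by
    intro h
    have h0 : periodHomPair N (f, 0) = periodHomPair N 0 := by rw [map_zero]; exact h
    have := hES.1 h0
    exact hf0 (congrArg Prod.fst this)
  have hvpar : v ∈ parabolicHoms ℂ (Gamma0 N) ℂ := by
    rw [← hES.2]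
    exact ⟨(f, 0), rfl⟩
  have hvspan : v ∈ Submodule.span ℂ (Set.range j) := by
    have hrange : Set.range j = (Lattice57.latticeInC (Gamma0 N) : Set (Additive (Gamma0 N) →+ ℂ)) := by
      ext ψ
      constructor
      · rintro ⟨x, rfl⟩
        exact (Lattice57.mem_latticeInC (Gamma0 N)).mpr ⟨x.1, x.2, rfl⟩
      · intro hψ
        obtain ⟨ψ₀, hψ₀, rfl⟩ := (Lattice57.mem_latticeInC (Gamma0 N)).mp hψ
        exact ⟨⟨ψ₀, hψ₀⟩, rfl⟩
    rw [hrange, Lattice57.span_latticeInC]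
    exact hvpar
  have heig : ∀ ℓ (hℓ : ℓ.Prime), ¬ ℓ ∣ N → TXN ℓ v = lam ℓ • v := by
    intro ℓ hℓ hℓN
    rw [hv, ← Final49.periodHomPair_thetaD TXN hE1 hE2 hE3 hℓ, Final49.thetaD_apply,
      Final49.theta_of_not_dvd hℓ hℓN]
    show periodHomPair N (heckeTLin 2 hℓ hℓN f, heckeTLin 2 hℓ hℓN 0) = _
    rw [hlam ℓ hℓ hℓN, map_zero, ← map_smul]
    congr 1
    ext <;> simp
  have hjT : ∀ (i : ↥PS) (x : ↥LN), j (T i x) = TXN i.1 (j x) := fun i x => by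
    rw [hj, hj]
    exact hTN i.1 (hPS i.1 i.2) x.1
  -- the eigencharacter
  let χ : MvPolynomial ↥PS ℤ →+* ℂ :=
    MvPolynomial.eval₂Hom (Int.castRingHom ℂ) (fun i : ↥PS => lam i.1)
  have hχ : ∀ s : MvPolynomial ↥PS ℤ, ∃ F : Module.End ℂ (Additive (Gamma0 N) →+ ℂ),
      (∀ x : ↥LN, j (s • x) = F (j x)) ∧ F v = χ s • v := by
    intro s
    induction s using MvPolynomial.induction_on with
    | C n =>
      refine ⟨(n : ℂ) • LinearMap.id, fun x => ?_, ?_⟩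
      · rw [TMod49.C_smul T hT n x, map_zsmul, LinearMap.smul_apply, LinearMap.id_apply,
          Int.cast_smul_eq_zsmul]
      · rw [LinearMap.smul_apply, LinearMap.id_apply]
        simp [χ]
    | add s t hs ht =>
      obtain ⟨F, hF1, hF2⟩ := hs
      obtain ⟨G, hG1, hG2⟩ := ht
      refine ⟨F + G, fun x => ?_, ?_⟩
      · rw [add_smul, map_add, hF1, hG1, LinearMap.add_apply]
      · rw [LinearMap.add_apply, hF2, hG2, map_add, add_smul]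
    | mul_X s i hs =>
      obtain ⟨F, hF1, hF2⟩ := hs
      refine ⟨F ∘ₗ TXN i.1, fun x => ?_, ?_⟩
      · rw [mul_smul, hF1, TMod49.X_smul T hT i x, hjT, LinearMap.comp_apply]
      · rw [LinearMap.comp_apply, heig i.1 (hPS i.1 i.2) (hPSN i.1 i.2), map_smul, hF2, map_mul,
          smul_smul]
        congr 1
        simp [χ, mul_comm]
  -- the integral lift of the eigencharacter
  choose! a ha1 ha2 using hc
  let χ' : MvPolynomial ↥PS ℤ →+* integralClosure ℤ ℂ :=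
    MvPolynomial.eval₂Hom (Int.castRingHom (integralClosure ℤ ℂ)) (fun i : ↥PS => a i.1)
  have hχ' : ∀ s, ((χ' s : integralClosure ℤ ℂ) : ℂ) = χ s := by
    intro s
    induction s using MvPolynomial.induction_on with
    | C n => simp [χ, χ']
    | add s t hs ht => rw [map_add, map_add, ← hs, ← ht]; push_cast; rfl
    | mul_X s i hs =>
      rw [map_mul, map_mul, ← hs]
      simp only [χ, χ', MvPolynomial.eval₂Hom_X', MulMemClass.coe_mul]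
      rw [ha1 i.1 i.2]
  have hχ'C : ∀ n : ℤ, χ' (MvPolynomial.C n) = ((n : ℤ) : integralClosure ℤ ℂ) := fun n => by
    show MvPolynomial.eval₂Hom _ _ (MvPolynomial.C n) = _
    rw [MvPolynomial.eval₂Hom_C]
    rfl
  have hχ'X : ∀ i : ↥PS, χ' (MvPolynomial.X i) = a i.1 := fun i => by
    show MvPolynomial.eval₂Hom _ _ (MvPolynomial.X i) = _
    rw [MvPolynomial.eval₂Hom_X']
  have hker : ∀ s : MvPolynomial ↥PS ℤ, TMod49.theta p (fun i : ↥PS => c i.1) s = 0 →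
      ∃ b : integralClosure ℤ ℂ, b ∈ 𝔪 ∧ (b : ℂ) = χ s := by
    intro s hs
    refine ⟨χ' s, ?_, hχ' s⟩
    obtain ⟨m, t, ht, rfl⟩ := TMod49.exists_of_theta_eq_zero p (fun i : ↥PS => c i.1) hs
    rw [map_add]
    refine 𝔪.add_mem ?_ ?_
    · have : χ' (MvPolynomial.C ((p : ℤ) * m)) =
          (p : integralClosure ℤ ℂ) * ((m : ℤ) : integralClosure ℤ ℂ) := by
        rw [hχ'C]
        push_cast
        rfl
      rw [this]
      exact 𝔪.mul_mem_right _ hpm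
    · have hle : TMod49.idealX (fun i : ↥PS => c i.1) ≤ Ideal.comap χ' 𝔪 := by
        unfold TMod49.idealX
        rw [Ideal.span_le]
        rintro _ ⟨i, rfl⟩
        show χ' (MvPolynomial.X i - MvPolynomial.C (c i.1)) ∈ 𝔪
        have : χ' (MvPolynomial.X i - MvPolynomial.C (c i.1)) =
            a i.1 - ((c i.1 : ℤ) : integralClosure ℤ ℂ) := by
          rw [map_sub, hχ'X, hχ'C]
        rw [this]
        exact ha2 i.1 i.2
      exact hle ht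
  -- the condition at `q'`
  obtain ⟨aq, haq1, haq2⟩ := hLR
  have hq : ∃ b : integralClosure ℤ ℂ, b ∈ 𝔪 ∧
      (b : ℂ) = lam q' ^ 2 - χ (MvPolynomial.C ((q' : ℤ) + 1)) ^ 2 := by
    refine ⟨aq ^ 2 - ((q' : integralClosure ℤ ℂ) + 1) ^ 2, haq2, ?_⟩
    have : χ (MvPolynomial.C ((q' : ℤ) + 1)) = (q' : ℂ) + 1 := by simp [χ]
    rw [this, ← haq1]
    push_cast
    rfl
  exact Mid77.hsupp_of_eigenvector (TMod49.theta p (fun i : ↥PS => c i.1))
    (MvPolynomial.C ((q' : ℤ) + 1)) tq j v hv0 hvspan χ hχ (lam q')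
    ⟨TXN q', fun x => by
        rw [hj, hj]
        exact hTN q' hq' x.1, heig q' hq' hq'N⟩
    𝔪 hmax.ne_top hker hq

end Hsupp

end Fermat.Agent.S41.Contract33
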