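/-
S41 (level raising) — TOP-LEVEL CONTRACT, integer form (helper33, integrator).

`Contract77.LevelRaisingHecke` states the non-Eisenstein hypothesis for the eigenvalues `lam ℓ` at
primes `ℓ` which need not belong to the set `PS` on which the eigen-system is congruent to the
integers `c ℓ`; the residue of such a `lam ℓ` modulo `𝔪` need not lie in the prime field.  In the
frozen statement the witness always lies in `PS`, so we restate plug 3 with the non-Eisenstein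
hypothesis in pure integer form:

  `∀ B : Finset ℕ, ∃ ℓ ∈ PS, ℓ ∉ B ∧ ¬ (p : ℤ) ∣ c ℓ - (ℓ + 1)`.

With this form the abstract Hecke algebra `MvPolynomial PS ℤ` and the character
`X_ℓ ↦ c ℓ mod p` with values in `ZMod p` suffice.

`s41_of_plugs_int` : the frozen statement S41 from `Contract77.NonEisPlug`,
`Contract77.EigenOfFormPlug` and `LevelRaisingHeckeInt`.
-/
import Mathlib
import Fermat.Agent.S41.Contract77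

set_option autoImplicit false

open WeierstrassCurve WeierstrassCurve.Affine WeierstrassCurve.Affine.Point
open scoped CongruenceSubgroup

namespace Fermat.Agent.S41.Contract33

open CongruenceSubgroup ModularFormClass
open Fermat.Agent.S41.Contract77

/-- **[LEVEL RAISING, Hecke form, integer non-Eisenstein hypothesis]**.  Same as
`Contract77.LevelRaisingHecke`, except that the non-Eisenstein hypothesis is about the integers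
`c ℓ`, `ℓ ∈ PS`. -/
def LevelRaisingHeckeInt : Prop :=
  ∀ (p N q' : ℕ) (_ : p.Prime) (_ : p ≠ 2) (_ : 0 < N) (_ : q'.Prime) (_ : ¬ q' ∣ N) (_ : q' ≠ p)
    [NeZero (N * q')]
    (f : CuspForm (Gamma0 N) 2) (_ : f ≠ 0) (lam : ℕ → ℂ)
    (_ : ∀ (ℓ : ℕ) (hℓ : ℓ.Prime) (hℓN : ¬ ℓ ∣ N), CuspForm.heckeTLin 2 hℓ hℓN f = lam ℓ • f)
    (𝔪 : Ideal Zbar) (_ : 𝔪.IsMaximal) (_ : (p : Zbar) ∈ 𝔪)
    (_ : ∃ a : Zbar, (a : ℂ) = lam q' ∧ a ^ 2 - ((q' : Zbar) + 1) ^ 2 ∈ 𝔪)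
    (PS : Set ℕ) (c : ℕ → ℤ) (_ : ∀ ℓ ∈ PS, ℓ.Prime ∧ ¬ ℓ ∣ N * q' ∧ ℓ ≠ p)
    (_ : ∀ ℓ ∈ PS, ∃ a : Zbar, (a : ℂ) = lam ℓ ∧ a - ((c ℓ : ℤ) : Zbar) ∈ 𝔪)
    (_ : ∀ B : Finset ℕ, ∃ ℓ ∈ PS, ℓ ∉ B ∧ ¬ (p : ℤ) ∣ c ℓ - ((ℓ : ℤ) + 1)),
    ∃ (g : CuspForm (Gamma0 (N * q')) 2) (mu : ℕ → ℂ) (𝔪' : Ideal Zbar),
      g ≠ 0 ∧ 𝔪'.IsMaximal ∧ (p : Zbar) ∈ 𝔪' ∧
      (∀ (ℓ : ℕ) (hℓ : ℓ.Prime) (hℓN : ¬ ℓ ∣ N * q'),
        CuspForm.heckeTLin 2 hℓ hℓN g = mu ℓ • g) ∧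
      (∀ (ℓ : ℕ) (_ : ℓ.Prime) (hℓN : ℓ ∣ N * q'), CuspForm.heckeULin 2 hℓN g = mu ℓ • g) ∧
      (∀ ℓ ∈ PS, ∃ a : Zbar, (a : ℂ) = mu ℓ ∧ a - ((c ℓ : ℤ) : Zbar) ∈ 𝔪') ∧
      mu q' ^ 2 = 1

/-- The original contract `Contract77.LevelRaisingHecke` implies `LevelRaisingHeckeInt`, so either
form of plug 3 may be supplied. -/
theorem levelRaisingHeckeInt_of_levelRaisingHecke (h : LevelRaisingHecke) :
    LevelRaisingHeckeInt := by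
  intro p N q' hp hp2 hN hq' hq'N hq'p _ f hf0 lam hlam 𝔪 hmax hpm hLR PS c hPS hc hNE
  refine h p N q' hp hp2 hN hq' hq'N hq'p f hf0 lam hlam 𝔪 hmax hpm ?_ hLR PS c hPS hc
  intro B
  obtain ⟨ℓ, hℓPS, hℓB, hndvd⟩ := hNE B
  obtain ⟨a, ha, ham⟩ := hc ℓ hℓPS
  refine ⟨ℓ, (hPS ℓ hℓPS).1, hℓB, a, ha, fun hmem => hndvd ?_⟩
  have hdiff : (((c ℓ - ((ℓ : ℤ) + 1) : ℤ)) : Zbar) ∈ 𝔪 := by
    have : (((c ℓ - ((ℓ : ℤ) + 1) : ℤ)) : Zbar) =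
        (a - ((ℓ : Zbar) + 1)) - (a - ((c ℓ : ℤ) : Zbar)) := by
      push_cast
      ring
    rw [this]
    exact 𝔪.sub_mem hmem ham
  exact dvd_of_intCast_mem hp hmax hpm hdiff

/-- **S41 from the three plugs, plug 3 in integer form.** -/
theorem s41_of_plugs_int (hNE : NonEisPlug) (hEig : EigenOfFormPlug) (hLRH : LevelRaisingHeckeInt)
    (E : WeierstrassCurve ℚ) [E.IsElliptic] {W : WeierstrassCurve ℤ} (hW : W.IsIntegralModelOf E)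
    {p N q' : ℕ} (hp : p.Prime) (hp2 : p ≠ 2) (hN : 0 < N) (hq' : q'.Prime) (hq'N : ¬ q' ∣ N)
    (hq'p : q' ≠ p)
    (hirr : GaloisRepIsIrreducible (K := AlgebraicClosure ℚ) ℚ E p)
    (f : CuspForm (CongruenceSubgroup.Gamma0 N) 2) (𝔪 : Ideal (integralClosure ℤ ℂ))
    (hf : f.IsNormalizedEigenform) (hmax : 𝔪.IsMaximal) (hpm : (p : integralClosure ℤ ℂ) ∈ 𝔪)
    (hcong : ∀ ℓ : ℕ, ℓ.Prime → W.IsGoodPrimeFor ℓ → ¬ ℓ ∣ N → ℓ ≠ p →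
      ∃ a : integralClosure ℤ ℂ, (a : ℂ) = ModularFormClass.qCoeff f ℓ ∧
        a - ((W.apOfModel ℓ : ℤ) : integralClosure ℤ ℂ) ∈ 𝔪)
    (hLR : ∃ a : integralClosure ℤ ℂ, (a : ℂ) = ModularFormClass.qCoeff f q' ∧
      a ^ 2 - ((q' : integralClosure ℤ ℂ) + 1) ^ 2 ∈ 𝔪) :
    ∃ (g : CuspForm (CongruenceSubgroup.Gamma0 (N * q')) 2) (𝔪' : Ideal (integralClosure ℤ ℂ)),
      g.IsNormalizedEigenform ∧ 𝔪'.IsMaximal ∧ (p : integralClosure ℤ ℂ) ∈ 𝔪' ∧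
      (∀ ℓ : ℕ, ℓ.Prime → W.IsGoodPrimeFor ℓ → ¬ ℓ ∣ N * q' → ℓ ≠ p →
        ∃ a : integralClosure ℤ ℂ, (a : ℂ) = ModularFormClass.qCoeff g ℓ ∧
          a - ((W.apOfModel ℓ : ℤ) : integralClosure ℤ ℂ) ∈ 𝔪') ∧
      g.IsNewAt q' := by
  have : NeZero (N * q') := ⟨Nat.mul_ne_zero hN.ne' hq'.ne_zero⟩
  have hNq0 : N * q' ≠ 0 := Nat.mul_ne_zero hN.ne' hq'.ne_zero
  -- the set of primes on which the congruence is transported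
  set PS : Set ℕ := {ℓ | ℓ.Prime ∧ W.IsGoodPrimeFor ℓ ∧ ¬ ℓ ∣ N * q' ∧ ℓ ≠ p} with hPSdef
  -- non-Eisenstein, integer form, with the witness in `PS`
  have hnoneis : ∀ B : Finset ℕ, ∃ ℓ ∈ PS, ℓ ∉ B ∧
      ¬ (p : ℤ) ∣ W.apOfModel ℓ - ((ℓ : ℤ) + 1) := by
    intro B
    obtain ⟨ℓ, hℓ, hℓB, hgood, hℓp, hndvd⟩ := hNE E W hW p hp hp2 hirr (B ∪ (N * q').primeFactors)
    have hℓB' : ℓ ∉ B := fun h => hℓB (Finset.mem_union_left _ h)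
    have hℓNq : ¬ ℓ ∣ N * q' := fun h =>
      hℓB (Finset.mem_union_right _ (Nat.mem_primeFactors.mpr ⟨hℓ, h, hNq0⟩))
    refine ⟨ℓ, ⟨hℓ, hgood, hℓNq, hℓp⟩, hℓB', fun hdvd => hndvd ?_⟩
    have : (ℓ : ℤ) + 1 - W.apOfModel ℓ = -(W.apOfModel ℓ - ((ℓ : ℤ) + 1)) := by ring
    rw [this]
    exact (dvd_neg).mpr hdvd
  -- level raising
  obtain ⟨g, mu, 𝔪', hg0, hmax', hpm', hT, hU, hcong', hnew⟩ :=
    hLRH p N q' hp hp2 hN hq' hq'N hq'p f hf.ne_zero (fun ℓ => qCoeff f ℓ)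
      (fun ℓ hℓ hℓN => hEig N f hf ℓ hℓ hℓN) 𝔪 hmax hpm hLR PS
      (fun ℓ => W.apOfModel ℓ) (fun ℓ hℓ => ⟨hℓ.1, hℓ.2.2.1, hℓ.2.2.2⟩)
      (fun ℓ hℓ => hcong ℓ hℓ.1 hℓ.2.1 (fun h => hℓ.2.2.1 (h.mul_right q')) hℓ.2.2.2)
      hnoneis
  -- normalise
  obtain ⟨hnorm, hcoeff⟩ :=
    Fermat.Agent.Lib.EigenformOfEigenvector.isNormalizedEigenform_of_eigenvector g hg0 mu hT hU
  refine ⟨(qCoeff g 1)⁻¹ • g, 𝔪', hnorm, hmax', hpm', ?_, ?_⟩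
  · intro ℓ hℓ hgood hℓN hℓp
    obtain ⟨a, ha, ham⟩ := hcong' ℓ ⟨hℓ, hgood, hℓN, hℓp⟩
    exact ⟨a, ha.trans (hcoeff ℓ hℓ).symm, ham⟩
  · show qCoeff ((qCoeff g 1)⁻¹ • g : CuspForm (Gamma0 (N * q')) 2) q' ^ 2 = 1
    rw [hcoeff q' hq']
    exact hnew

end Fermat.Agent.S41.Contract33
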