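/-
S41 / plug 3, FINAL INSTANTIATION (helper33, integrator).

`Contract33.levelRaising_of_leaves_weak` + `Contract33.hsupp_of_eigenform` instantiated with the
LITERAL operators of the leaves:

* `Hecke15.TX`, `Hecke15.TXlin` (helper15) with E1–E3, `hTZ`, parabolic stability;
  commutativity `CohComm87.TX_comm_int` (helper87); Eichler–Shimura `Fermat.Agent.S21.result`;
* degeneracy maps `Hecke15.degRes`, `Hecke15.degConj` (helper15), traces `New63.degCores`,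
  `New63.degCores ∘ New63.WOp` (helper63) with `β ∘ α` (`New63/BetaAlpha`), Hecke equivariance
  (`ESInt52.TX_degRes_of_ne`, `ESInt52.TX_degConj`, `Hecke15.degCores_TX_comm`,
  `Hecke15.degCoresW_TX_comm`), and [NEW] `New63.TX_TX_of_mem_ker`;
* Poincaré duality: `PDCore84.B` (helper84) with `B_exists`, `B_nondeg`, adjunctions and
  self-adjointness from `PDInst24` (helper24: `B_degRes_degCores`, `B_degConj_degCoresW`,
  `B_TX_selfadjoint`).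

The ONLY remaining hypothesis is Ihara's lemma in the literal operators, `IharaPlug`.
-/
import Mathlib
import Fermat.Agent.S41.Contract33.Top
import Fermat.Agent.S41.Contract33.Concrete2
import Fermat.Agent.S41.Contract33.Hsupp
import Fermat.Agent.S41.Hecke15.KNew
import Fermat.Agent.S41.ESInt52.DegComm
import Fermat.Agent.S41.ESInt52.DegCommConj
import Fermat.Agent.S41.PDInst24.AdjW
import Fermat.Agent.S41.CohComm87.TXComm
import Fermat.Agent.S21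

set_option autoImplicit false

namespace Fermat.Agent.S41.Contract33

open ModularCurve ModularCurve.Period CongruenceSubgroup CuspForm
open WeierstrassCurve WeierstrassCurve.Affine WeierstrassCurve.Affine.Point
open scoped MatrixGroups

/-- **Ihara's lemma, in the literal operators** (the last open leaf of plug 3): a pair of integral
parabolic classes of level `N` whose image `res x + conj y` at level `N q'` is divisible by `p` is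
Eisenstein modulo `p` outside a finite set of primes. -/
def IharaPlug : Prop :=
  ∀ (p N q' : ℕ) (_ : p.Prime) (_ : p ≠ 2) (hq' : q'.Prime) (_ : ¬ q' ∣ N) (_ : q' ≠ p)
    [NeZero N] [NeZero (N * q')],
    ∀ x ∈ parabolicHoms ℤ (Gamma0 N) ℤ, ∀ y ∈ parabolicHoms ℤ (Gamma0 N) ℤ,
      (∃ w ∈ parabolicHoms ℤ (Gamma0 (N * q')) ℤ,
        Hecke15.degRes (Dvd.intro q' rfl) ℤ x + Hecke15.degConj hq'.pos ℤ y = (p : ℤ) • w) →
      ∃ B : Finset ℕ, ∀ ℓ, ℓ.Prime → ℓ ∉ B →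
        (∃ w ∈ parabolicHoms ℤ (Gamma0 N) ℤ,
          Hecke15.TX N ℤ ℓ x - ((ℓ : ℤ) + 1) • x = (p : ℤ) • w) ∧
        (∃ w ∈ parabolicHoms ℤ (Gamma0 N) ℤ,
          Hecke15.TX N ℤ ℓ y - ((ℓ : ℤ) + 1) • y = (p : ℤ) • w)

/-- **Plug 3 from Ihara's lemma.** -/
theorem levelRaisingHeckeInt_of_ihara (hIh : IharaPlug) : LevelRaisingHeckeInt := by
  intro p N q' hp hp2 hN hq' hq'N hq'p _ f hf0 lam hlam 𝔪 hmax hpm hLR PS c hPS hc hNE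
  haveI : NeZero N := ⟨hN.ne'⟩
  haveI : Fact q'.Prime := ⟨hq'⟩
  obtain ⟨x, y, hxy⟩ := New63.exists_bezout63 N q' hq' hq'N
  have hPSp : ∀ ℓ ∈ PS, ℓ.Prime := fun ℓ h => (hPS ℓ h).1
  have hPSN : ∀ ℓ ∈ PS, ¬ ℓ ∣ N := fun ℓ h hd => (hPS ℓ h).2.1 (Dvd.dvd.mul_right hd q')
  have hPSq : ∀ ℓ ∈ PS, ℓ ≠ q' := fun ℓ h he => (hPS ℓ h).2.1 (he ▸ Dvd.intro_left N rfl)
  have hTNpar : ∀ ℓ, ℓ.Prime → ∀ φ ∈ parabolicHoms ℤ (Gamma0 N) ℤ,
      (fun ℓ => Hecke15.TXlin ℤ N ℤ ℓ) ℓ φ ∈ parabolicHoms ℤ (Gamma0 N) ℤ :=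
    fun ℓ _ φ hφ => Hecke15.TX_mem_parabolicHoms ℤ ℓ hφ
  have hTNcomm : ∀ ℓ ℓ', ℓ.Prime → ℓ'.Prime → ∀ φ ∈ parabolicHoms ℤ (Gamma0 N) ℤ,
      (fun ℓ => Hecke15.TXlin ℤ N ℤ ℓ) ℓ ((fun ℓ => Hecke15.TXlin ℤ N ℤ ℓ) ℓ' φ) =
        (fun ℓ => Hecke15.TXlin ℤ N ℤ ℓ) ℓ' ((fun ℓ => Hecke15.TXlin ℤ N ℤ ℓ) ℓ φ) :=
    fun ℓ ℓ' _ _ φ hφ => CohComm87.TX_comm_int ℓ ℓ' φ hφ
  have hβ₁par : ∀ φ ∈ parabolicHoms ℤ (Gamma0 (N * q')) ℤ,
      New63.degCores N q' x y hxy hN.ne' hq'N φ ∈ parabolicHoms ℤ (Gamma0 N) ℤ :=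
    fun φ hφ => PDInst24.degCores_mem_parabolicHoms N q' x y hxy hN.ne' hq'N hφ
  have hβ₂par : ∀ φ ∈ parabolicHoms ℤ (Gamma0 (N * q')) ℤ,
      ((New63.degCores N q' x y hxy hN.ne' hq'N).comp (New63.WOp N q' x y hxy)) φ ∈
        parabolicHoms ℤ (Gamma0 N) ℤ :=
    fun φ hφ => PDInst24.degCores_mem_parabolicHoms N q' x y hxy hN.ne' hq'N
      (PDInst24.WOp_mem_parabolicHoms N q' x y hxy hφ)
  refine levelRaising_of_leaves_weak hp hq'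
    (fun ℓ => Hecke15.TXlin ℂ (N * q') ℂ ℓ) Hecke15.final49_hE1 Hecke15.final49_hE2
    Hecke15.final49_hE3 (Fermat.Agent.S21.result (N * q'))
    (fun ℓ => Hecke15.TXlin ℤ (N * q') ℤ ℓ) (fun ℓ _ φ => Hecke15.final49_hTZ ℓ φ)
    (fun ℓ _ φ hφ => Hecke15.TX_mem_parabolicHoms ℤ ℓ hφ)
    (fun ℓ => Hecke15.TXlin ℤ N ℤ ℓ) hTNpar hTNcomm
    (Hecke15.degRes (Dvd.intro q' rfl) ℤ) (Hecke15.degConj hq'.pos ℤ)
    (New63.degCores N q' x y hxy hN.ne' hq'N)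
    ((New63.degCores N q' x y hxy hN.ne' hq'N).comp (New63.WOp N q' x y hxy))
    (fun φ hφ => Hecke15.degRes_mem_parabolicHoms ℤ _ hφ)
    (fun φ hφ => Hecke15.degConj_mem_parabolicHoms ℤ hq'.pos hφ)
    hβ₁par hβ₂par PS hPSp
    (fun ℓ hℓ φ _ => (ESInt52.TX_degRes_of_ne (hPSp ℓ hℓ) hq' (hPSq ℓ hℓ) φ).symm)
    (fun ℓ hℓ φ _ => (ESInt52.TX_degConj hq'N hq'.pos (hPSp ℓ hℓ) (hPSq ℓ hℓ) φ).symm)
    (fun ℓ hℓ φ _ =>
      Hecke15.degCores_TX_comm N q' x y hxy hN.ne' hq'N (hPSp ℓ hℓ) (hPSq ℓ hℓ) φ)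
    (fun ℓ hℓ φ _ =>
      Hecke15.degCoresW_TX_comm N q' x y hxy hN.ne' hq'N (hPSp ℓ hℓ) (hPSq ℓ hℓ) φ)
    (fun φ _ => by
      rw [New63.degCores_degRes N q' x y hxy hN.ne' hq'N φ]
      rw [← natCast_zsmul]
      push_cast
      rfl)
    (fun φ _ => New63.degCores_degConj N q' x y hxy hN.ne' hq'N φ)
    (fun φ _ => New63.degCores_WOp_degRes N q' x y hxy hN.ne' hq'N φ)
    (fun φ _ => by
      show New63.degCores N q' x y hxy hN.ne' hq'N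
        (New63.WOp N q' x y hxy (Hecke15.degConj hq'.pos ℤ φ)) = _
      rw [New63.degCores_WOp_degConj N q' x y hxy hN.ne' hq'N φ]
      rw [← natCast_zsmul]
      push_cast
      rfl)
    (fun x₁ hx₁ y₁ hy₁ h => hIh p N q' hp hp2 hq' hq'N hq'p x₁ hx₁ y₁ hy₁ h)
    (PDCore84.B (PDInst51.neg_one_mem_Gamma0_51 N))
    (PDCore84.B (PDInst51.neg_one_mem_Gamma0_51 (N * q')))
    (PDCore84.B_nondeg _) (PDCore84.B_exists _) (PDCore84.B_exists _)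
    (fun ℓ hℓ u v => by
      haveI : Fact ℓ.Prime := ⟨hPSp ℓ hℓ⟩
      haveI : NeZero (N * ℓ) := ⟨Nat.mul_ne_zero hN.ne' (hPSp ℓ hℓ).ne_zero⟩
      obtain ⟨x', y', hxy'⟩ := New63.exists_bezout63 N ℓ (hPSp ℓ hℓ) (hPSN ℓ hℓ)
      exact PDInst24.B_TX_selfadjoint N ℓ x' y' hxy' hN.ne' (hPSN ℓ hℓ) u.1 v.1 u.2 v.2 _ _)
    (fun u z => PDInst24.B_degRes_degCores N q' x y hxy hN.ne' hq'N u.1 u.2 z.1 z.2 _ _)
    (fun u z => PDInst24.B_degConj_degCoresW N q' x y hxy hN.ne' hq'N u.1 u.2 z.1 z.2 _ _)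
    (fun φ _ h1 h2 => New63.TX_TX_of_mem_ker N q' x y hxy hN.ne' hq'N φ h1 h2)
    c hNE
    (hsupp_of_eigenform hp hq' hq'N (fun ℓ => Hecke15.TXlin ℂ N ℂ ℓ) Hecke15.final49_hE1
      Hecke15.final49_hE2 Hecke15.final49_hE3 (Fermat.Agent.S21.result N)
      (fun ℓ => Hecke15.TXlin ℤ N ℤ ℓ) (fun ℓ _ φ => Hecke15.final49_hTZ ℓ φ) hTNpar hTNcomm
      PS hPSp hPSN f hf0 lam hlam 𝔪 hmax hpm hLR c hc)

/-- **S41 from Ihara's lemma** (plugs 1 and 2 are closed: `NonEis44.nonEisPlug`,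
`QExp77.eigenOfFormPlug` are supplied by the caller to keep this file's closure small). -/
theorem s41_of_ihara (hNE : Contract77.NonEisPlug) (hEig : Contract77.EigenOfFormPlug)
    (hIh : IharaPlug) :
    ∀ (E : WeierstrassCurve ℚ) [E.IsElliptic] {W : WeierstrassCurve ℤ}
      (_ : W.IsIntegralModelOf E) {p N q' : ℕ} (_ : p.Prime) (_ : p ≠ 2) (_ : 0 < N)
      (_ : q'.Prime) (_ : ¬ q' ∣ N) (_ : q' ≠ p)
      (_ : GaloisRepIsIrreducible (K := AlgebraicClosure ℚ) ℚ E p)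
      (f : CuspForm (CongruenceSubgroup.Gamma0 N) 2) (𝔪 : Ideal (integralClosure ℤ ℂ))
      (_ : f.IsNormalizedEigenform) (_ : 𝔪.IsMaximal) (_ : (p : integralClosure ℤ ℂ) ∈ 𝔪)
      (_ : ∀ ℓ : ℕ, ℓ.Prime → W.IsGoodPrimeFor ℓ → ¬ ℓ ∣ N → ℓ ≠ p →
        ∃ a : integralClosure ℤ ℂ, (a : ℂ) = ModularFormClass.qCoeff f ℓ ∧
          a - ((W.apOfModel ℓ : ℤ) : integralClosure ℤ ℂ) ∈ 𝔪)
      (_ : ∃ a : integralClosure ℤ ℂ, (a : ℂ) = ModularFormClass.qCoeff f q' ∧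
        a ^ 2 - ((q' : integralClosure ℤ ℂ) + 1) ^ 2 ∈ 𝔪),
      ∃ (g : CuspForm (CongruenceSubgroup.Gamma0 (N * q')) 2) (𝔪' : Ideal (integralClosure ℤ ℂ)),
        g.IsNormalizedEigenform ∧ 𝔪'.IsMaximal ∧ (p : integralClosure ℤ ℂ) ∈ 𝔪' ∧
        (∀ ℓ : ℕ, ℓ.Prime → W.IsGoodPrimeFor ℓ → ¬ ℓ ∣ N * q' → ℓ ≠ p →
          ∃ a : integralClosure ℤ ℂ, (a : ℂ) = ModularFormClass.qCoeff g ℓ ∧
            a - ((W.apOfModel ℓ : ℤ) : integralClosure ℤ ℂ) ∈ 𝔪') ∧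
        g.IsNewAt q' :=
  fun E _ _ hW _ _ _ hp hp2 hN hq' hq'N hq'p hirr f 𝔪 hf hmax hpm hcong hLR =>
    s41_of_plugs_int hNE hEig (levelRaisingHeckeInt_of_ihara hIh) E hW hp hp2 hN hq' hq'N hq'p hirr
      f 𝔪 hf hmax hpm hcong hLR

end Fermat.Agent.S41.Contract33
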