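/-
S41 / plug 3, LAST REDUCTION, second form (helper33, integrator).

`Contract33.IharaPlug` from the THEOREM of the elementary proof of the congruence subgroup property
(helper11), in helper95's literal form `CSP95.ParHomZero p q m`: every function `SL₂(ℚ) → ℤ/p`
which is additive on `Γ(m)[1/q]` and kills its trace-2 elements vanishes on `Γ(m)[1/q]`.

`s41_of_parHomZero` : the frozen statement of S41 from `ParHomAll` (plugs 1 and 2 are supplied by
the caller to keep the import closure of this file small).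
-/
import Fermat.Agent.S41.Contract33.Final
import Fermat.Agent.S41.CSP95.Plug

set_option autoImplicit false

namespace Fermat.Agent.S41.Contract33

open ModularCurve ModularCurve.Period CongruenceSubgroup CuspForm
open WeierstrassCurve WeierstrassCurve.Affine WeierstrassCurve.Affine.Point
open scoped MatrixGroups

/-- **The last leaf of S41** in the form produced by the elementary proof of the congruence
subgroup property: `CSP95.ParHomZero p q m` for every odd prime `p`, prime `q ≠ p` and level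
`m > 0` prime to `q`. -/
def ParHomAll : Prop :=
  ∀ p q m : ℕ, p.Prime → p ≠ 2 → q.Prime → q ≠ p → 0 < m → Nat.Coprime m q →
    CSP95.ParHomZero p q m

/-- **Ihara's lemma from the THEOREM.** -/
theorem iharaPlug_of_parHomAll (hT : ParHomAll) : IharaPlug :=
  CSP95.ihara_literal_of_parHomZero hT

/-- **S41 from the THEOREM** (plugs 1 and 2 supplied by the caller). -/
theorem s41_of_parHomAll (hNE : Contract77.NonEisPlug) (hEig : Contract77.EigenOfFormPlug)
    (hT : ParHomAll) :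
    ∀ (E : WeierstrassCurve ℚ) [E.IsElliptic] {W : WeierstrassCurve ℤ}
      (_ : W.IsIntegralModelOf E) {p N q' : ℕ} (_ : p.Prime) (_ : p ≠ 2) (_ : 0 < N)
      (_ : q'.Prime) (_ : ¬ q' ∣ N) (_ : q' ≠ p)
      (_ : GaloisRepIsIrreducible (K := AlgebraicClosure ℚ) ℚ E p)
      (f : CuspForm (CongruenceSubgroup.Gamma0 N) 2) (𝔪 : Ideal (integralClosure ℤ ℂ))
      (_ : f.IsNormalizedEigenform) (_ : 𝔪.IsMaximal) (_ : (p : integralClosure ℤ ℂ) ∈ 𝔪)
      (_ : ∀ ℓ : ℕ, ℓ.Prime → W.IsGoodPrimeFor ℓ → ¬ ℓ ∣ N → ℓ ≠ p →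
        ∃ a : integralClosure ℤ ℂ, (a : ℂ) = ModularFormClass.qCoeff f ℓ ∧
          a - ((W.apOfModel ℓ : ℤ) : integralClosure ℤ ℂ) ∈ 𝔪)
      (_ : ∃ a : integralClosure ℤ ℂ, (a : ℂ) = ModularFormClass.qCoeff f q' ∧
        a ^ 2 - ((q' : integralClosure ℤ ℂ) + 1) ^ 2 ∈ 𝔪),
      ∃ (g : CuspForm (CongruenceSubgroup.Gamma0 (N * q')) 2) (𝔪' : Ideal (integralClosure ℤ ℂ)),
        g.IsNormalizedEigenform ∧ 𝔪'.IsMaximal ∧ (p : integralClosure ℤ ℂ) ∈ 𝔪' ∧
        (∀ ℓ : ℕ, ℓ.Prime → W.IsGoodPrimeFor ℓ → ¬ ℓ ∣ N * q' → ℓ ≠ p →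
          ∃ a : integralClosure ℤ ℂ, (a : ℂ) = ModularFormClass.qCoeff g ℓ ∧
            a - ((W.apOfModel ℓ : ℤ) : integralClosure ℤ ℂ) ∈ 𝔪') ∧
        g.IsNewAt q' :=
  s41_of_ihara hNE hEig (iharaPlug_of_parHomAll hT)

end Fermat.Agent.S41.Contract33
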