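/-
S41 / plug 3, THE LAST LEAF CLOSED (helper33, integrator).

`Contract33.ParHomAll` (the THEOREM of helper11's elementary proof of the congruence subgroup
property, in helper95's literal form) from the landed CSP11 leaves:

* STEP A: `CSP11.stepA_uQ`, `CSP11.stepA_wQ` (helper11) with the number theory
  `CSPNum87.ntInput` (helper87);
* STEP B: `CSP11.stepB_prime` (helper15, on helper24's `CSP24.torus_kill`);
* STEP C: `CSP11.stepC_kill` (helper86, on `NumC`/`NumCDir`/`KillC` of helper32/helper92/helper86).

Hence `Contract33.iharaPlug : IharaPlug` and `s41_of_two_plugs`.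
-/
import Fermat.Agent.S41.Contract33.FromParHom
import Fermat.Agent.S41.CSP11.StepB
import Fermat.Agent.S41.CSP11.StepC86
import Fermat.Agent.S41.CSPNum87.NTInput

set_option autoImplicit false

namespace Fermat.Agent.S41.Contract33

open Fermat.Agent.S41.Amalgam95 Fermat.Agent.S41.Ihara95

/-- **The THEOREM** (congruence subgroup property of `SL₂(ℤ[1/q])`, `𝔽_p`-coefficient form). -/
theorem parHomAll : ParHomAll := by
  intro p q m hp hp2 hq _ hm hmq Φ hmul hun g hg
  have hNT : ∀ M : ℕ, 0 < M → M.Coprime q → CSP11.NTInput q M :=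
    fun M hM hMq => CSPNum87.ntInput q M hq hM hMq
  have h : CSP11.ParHom q m Φ := ⟨hmul, hun⟩
  have hV : ∀ v : ZMod p, p • v = 0 := by
    intro v
    rw [nsmul_eq_mul, ZMod.natCast_self, zero_mul]
  exact CSP11.stepC_kill hp hp2 hq hm hmq hV h
    (fun t ht => CSP11.stepA_uQ hm.ne' (hNT m hm hmq) h ht)
    (CSP11.stepA_wQ hm.ne' (hNT m hm hmq) h) (max m q)
    (CSP11.stepB_prime hp hq hm hmq hNT hV h) g hg

/-- **Ihara's lemma in the literal operators** (plug 3's last leaf), unconditionally. -/
theorem iharaPlug : IharaPlug := iharaPlug_of_parHomAll parHomAll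

/-- **Plug 3**, unconditionally. -/
theorem levelRaisingHeckeInt : LevelRaisingHeckeInt := levelRaisingHeckeInt_of_ihara iharaPlug

end Fermat.Agent.S41.Contract33
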