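/-
S41 / plug 3, LAST REDUCTION (helper33, integrator).

`Contract33.IharaPlug` (Ihara's lemma in the literal operators, the only hypothesis left in
`Contract33.s41_of_ihara`) follows from the congruence subgroup property in its consumer form
`Ihara73.CSPPlug N q p` (helper73), through helper95's dictionary `Ihara95.ihara_hI_degen`.

So the whole of S41 is reduced to the single statement `CSPAll` below: for `p` an odd prime,
`q ≠ p` a prime not dividing `N > 0`, every homomorphism `Γ₀(N)[1/q] → 𝔽_p` is trivial on the two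
copies of some principal congruence subgroup.
-/
import Fermat.Agent.S41.Contract33.Final
import Fermat.Agent.S41.Ihara95.Dict

set_option autoImplicit false

namespace Fermat.Agent.S41.Contract33

open ModularCurve ModularCurve.Period CongruenceSubgroup CuspForm
open WeierstrassCurve WeierstrassCurve.Affine WeierstrassCurve.Affine.Point
open scoped MatrixGroups

/-- **The last leaf of S41**: the congruence subgroup property (consumer form, `𝔽_p`
coefficients) for `Γ₀(N)[1/q]`, for all odd primes `p`, primes `q ≠ p`, `q ∤ N`, `N > 0`. -/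
def CSPAll : Prop :=
  ∀ (N q p : ℕ) [Fact q.Prime], p.Prime → p ≠ 2 → ¬ q ∣ N → q ≠ p → 0 < N →
    Ihara73.CSPPlug N q p

/-- **Ihara's lemma from the congruence subgroup property.** -/
theorem iharaPlug_of_csp (hCSP : CSPAll) : IharaPlug := by
  intro p N q' hp hp2 hq' hq'N hq'p _ _ x hx y hy hw
  haveI : Fact q'.Prime := ⟨hq'⟩
  haveI : Fact p.Prime := ⟨hp⟩
  obtain ⟨w, -, hw⟩ := hw
  exact Ihara95.ihara_hI_degen hq'N
    (hCSP N q' p hp hp2 hq'N hq'p (Nat.pos_of_ne_zero (NeZero.ne N))) hx hy w hw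

/-- **S41 from the congruence subgroup property** (plugs 1 and 2 supplied by the caller). -/
theorem s41_of_csp (hNE : Contract77.NonEisPlug) (hEig : Contract77.EigenOfFormPlug)
    (hCSP : CSPAll) :
    ∀ (E : WeierstrassCurve ℚ) [E.IsElliptic] {W : WeierstrassCurve ℤ}
      (_ : W.IsIntegralModelOf E) {p N q' : ℕ} (_ : p.Prime) (_ : p ≠ 2) (_ : 0 < N)
      (_ : q'.Prime) (_ : ¬ q' ∣ N) (_ : q' ≠ p)
      (_ : GaloisRepIsIrreducible (K := AlgebraicClosure ℚ) ℚ E p)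
      (f : CuspForm (CongruenceSubgroup.Gamma0 N) 2) (𝔪 : Ideal (integralClosure ℤ ℂ))
      (_ : f.IsNormalizedEigenform) (_ : 𝔪.IsMaximal) (_ : (p : integralClosure ℤ ℂ) ∈ 𝔪)
      (_ : ∀ ℓ : ℕ, ℓ.Prime → W.IsGoodPrimeFor ℓ → ¬ ℓ ∣ N → ℓ ≠ p →
        ∃ a : integralClosure ℤ ℂ, (a : ℂ) = ModularFormClass.qCoeff f ℓ ∧
          a - ((W.apOfModel ℓ : ℤ) : integralClosure ℤ ℂ) ∈ 𝔪)
      (_ : ∃ a : integralClosure ℤ ℂ, (a : ℂ) = ModularFormClass.qCoeff f q' ∧
        a ^ 2 - ((q' : integralClosure ℤ ℂ) + 1) ^ 2 ∈ 𝔪),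
      ∃ (g : CuspForm (CongruenceSubgroup.Gamma0 (N * q')) 2) (𝔪' : Ideal (integralClosure ℤ ℂ)),
        g.IsNormalizedEigenform ∧ 𝔪'.IsMaximal ∧ (p : integralClosure ℤ ℂ) ∈ 𝔪' ∧
        (∀ ℓ : ℕ, ℓ.Prime → W.IsGoodPrimeFor ℓ → ¬ ℓ ∣ N * q' → ℓ ≠ p →
          ∃ a : integralClosure ℤ ℂ, (a : ℂ) = ModularFormClass.qCoeff g ℓ ∧
            a - ((W.apOfModel ℓ : ℤ) : integralClosure ℤ ℂ) ∈ 𝔪') ∧
        g.IsNewAt q' :=
  s41_of_ihara hNE hEig (iharaPlug_of_csp hCSP)

end Fermat.Agent.S41.Contract33
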